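import Mathlib.NumberTheory.NumberField.Discriminant.Different
import Mathlib.NumberTheory.RamificationInertia.Galois
import Mathlib.RingTheory.UniqueFactorizationDomain.Multiplicity

set_option autoImplicit false

open scoped Pointwise NumberField nonZeroDivisors

namespace Fermat.Agent.MWKummer

/-- Divisibility can be tested on prime powers. -/
theorem dvd_of_forall_primePow {α : Type*} [CommMonoidWithZero α]
    [UniqueFactorizationMonoid α] {a b : α} (ha : a ≠ 0)
    (h : ∀ x : α, Prime x → ∀ j : ℕ, x ^ j ∣ a → x ^ j ∣ b) : a ∣ b := by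
  refine (UniqueFactorizationMonoid.dvd_iff_emultiplicity_le ha).mpr fun x hx => ?_
  refine ENat.forall_natCast_le_iff_le.mp fun j hj => ?_
  exact pow_dvd_iff_le_emultiplicity.mp (h x hx j (pow_dvd_iff_le_emultiplicity.mpr hj))

variable (L : Type*) [Field L] [NumberField L]

/-- An inverse of an ideal above the different has integral traces. -/
theorem exists_trace_eq_intCast_of_differentIdeal_le {I : Ideal (𝓞 L)} (hI : I ≠ ⊥)
    (h : differentIdeal ℤ (𝓞 L) ≤ I) {x : L}
    (hx : ∀ a ∈ I, ∃ b : 𝓞 L, x * (a : L) = (b : L)) :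
    ∃ n : ℤ, Algebra.trace ℚ L x = n := by
  have hle := (differentialIdeal_le_iff (A := ℤ) (K := ℚ) (L := L) hI).mp h
  have hmem : x ∈ ((I : FractionalIdeal (𝓞 L)⁰ L)⁻¹) := by
    rw [FractionalIdeal.mem_inv_iff (by simpa using hI)]
    rintro y hy
    obtain ⟨a, ha, rfl⟩ := (FractionalIdeal.mem_coeIdeal _).mp hy
    obtain ⟨b, hb⟩ := hx a ha
    exact (FractionalIdeal.mem_one_iff _).mpr ⟨b, hb.symm⟩
  obtain ⟨n, hn⟩ := Submodule.mem_one.mp (hle (Submodule.mem_map_of_mem hmem))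
  exact ⟨n, by simpa using hn.symm⟩

/-- The converse: an ideal whose inverse has integral traces is above the different. -/
theorem differentIdeal_le_of_trace {I : Ideal (𝓞 L)} (hI : I ≠ ⊥)
    (h : ∀ x : L, (∀ a ∈ I, ∃ b : 𝓞 L, x * (a : L) = (b : L)) →
      ∃ n : ℤ, Algebra.trace ℚ L x = n) :
    differentIdeal ℤ (𝓞 L) ≤ I := by
  refine (differentialIdeal_le_iff (A := ℤ) (K := ℚ) (L := L) hI).mpr ?_
  rintro _ ⟨x, hx, rfl⟩
  have hx' : ∀ a ∈ I, ∃ b : 𝓞 L, x * (a : L) = (b : L) := fun a ha => by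
    obtain ⟨b, hb⟩ := (FractionalIdeal.mem_one_iff _).mp
      ((FractionalIdeal.mem_inv_iff (by simpa using hI)).mp hx _
        (FractionalIdeal.mem_coeIdeal_of_mem _ ha))
    exact ⟨b, hb.symm⟩
  obtain ⟨n, hn⟩ := h x hx'
  exact Submodule.mem_one.mpr ⟨n, by simpa using hn.symm⟩

/-- The different is stable under automorphisms. -/
theorem smul_differentIdeal (σ : L ≃ₐ[ℚ] L) :
    σ • differentIdeal ℤ (𝓞 L) = differentIdeal ℤ (𝓞 L) := by
  have key : ∀ τ : L ≃ₐ[ℚ] L, differentIdeal ℤ (𝓞 L) ≤ τ • differentIdeal ℤ (𝓞 L) := by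
    intro τ
    have hD : differentIdeal ℤ (𝓞 L) ≠ ⊥ := differentIdeal_ne_bot
    refine differentIdeal_le_of_trace L (fun h => hD ?_) fun x hx => ?_
    · exact (smul_eq_zero_iff_eq τ (x := differentIdeal ℤ (𝓞 L))).mp h
    · obtain ⟨n, hn⟩ := exists_trace_eq_intCast_of_differentIdeal_le L hD le_rfl
        (x := τ.symm x) fun a ha => by
          obtain ⟨b, hb⟩ := hx (τ • a) (Ideal.smul_mem_pointwise_smul τ a _ ha)
          refine ⟨τ⁻¹ • b, ?_⟩
          have := congrArg τ.symm hb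
          rw [map_mul, show ((τ • a : 𝓞 L) : L) = τ (a : L) from rfl,
            AlgEquiv.symm_apply_apply] at this
          exact this
      exact ⟨n, by rw [← Algebra.trace_eq_of_algEquiv τ.symm x]; exact hn⟩
  refine le_antisymm ?_ (key σ)
  simpa [Ideal.pointwise_smul_le_pointwise_smul_iff] using
    (Ideal.pointwise_smul_le_pointwise_smul_iff (a := σ)).mpr (key σ⁻¹)

/-- A prime power dividing the different divides the degree. -/
theorem dvd_finrank_of_span_dvd_differentIdeal {m : ℕ} (hm : m ≠ 0)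
    (h : Ideal.span {(m : 𝓞 L)} ∣ differentIdeal ℤ (𝓞 L)) :
    m ∣ Module.finrank ℚ L := by
  have hmL : (m : L) ≠ 0 := Nat.cast_ne_zero.mpr hm
  obtain ⟨n, hn⟩ := exists_trace_eq_intCast_of_differentIdeal_le L
    (I := Ideal.span {(m : 𝓞 L)}) (by simpa using hm) (Ideal.dvd_iff_le.mp h) (x := (m : L)⁻¹)
    fun a ha => by
      obtain ⟨c, rfl⟩ := Ideal.mem_span_singleton'.mp ha
      exact ⟨c, by push_cast; field_simp⟩
  have hx : ((m : L))⁻¹ = algebraMap ℚ L ((m : ℚ)⁻¹) := by simp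
  rw [hx, Algebra.trace_algebraMap] at hn
  have hQ : (Module.finrank ℚ L : ℚ) = (n * m : ℤ) := by
    push_cast
    rw [← hn, nsmul_eq_mul]
    field_simp
  rw [← Int.natCast_dvd_natCast]
  exact ⟨n, by rw [mul_comm]; exact_mod_cast hQ⟩

variable [IsGalois ℚ L]

/-- The different of a Galois number field unramified outside `S` divides an explicit integer. -/
theorem differentIdeal_dvd (S : Finset ℕ)
    (hS : ∀ q : ℕ, q.Prime → q ∉ S → ∀ (P : Ideal (𝓞 L)) [P.IsPrime], (q : 𝓞 L) ∈ P →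
      Algebra.IsUnramifiedAt ℤ P) :
    differentIdeal ℤ (𝓞 L) ∣
      Ideal.span {(((∏ p ∈ S.filter Nat.Prime, p) ^ Module.finrank ℚ L : ℕ) : 𝓞 L)} := by
  have := IsGaloisGroup.of_isFractionRing (L ≃ₐ[ℚ] L) ℤ (𝓞 L) ℚ L
  set d := Module.finrank ℚ L
  set N := (∏ p ∈ S.filter Nat.Prime, p) ^ d with hN
  refine dvd_of_forall_primePow (by simpa using differentIdeal_ne_bot (A := ℤ) (B := 𝓞 L))
    fun P hP j hj => ?_
  rcases Nat.eq_zero_or_pos j with rfl | hj0
  · simp
  have hPp : P.IsPrime := Ideal.isPrime_of_prime hP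
  have : P.IsMaximal := hPp.isMaximal hP.ne_zero
  have : (P.under ℤ).IsMaximal := Ideal.IsMaximal.under ℤ P
  obtain ⟨q, hq, hqP⟩ : ∃ q : ℕ, q.Prime ∧ P.under ℤ = Ideal.span {(q : ℤ)} := by
    obtain ⟨n, hn⟩ := IsPrincipalIdealRing.principal (P.under ℤ)
    replace hn : P.under ℤ = Ideal.span {n} := hn
    have hn0 : n ≠ 0 := by
      rintro rfl
      exact Ideal.IsMaximal.ne_bot_of_isIntegral_int P
        (Ideal.eq_bot_of_comap_eq_bot (hn.trans (by simp)))
    refine ⟨n.natAbs, Int.prime_iff_natAbs_prime.mp ?_, by rw [hn, Int.span_natAbs]⟩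
    rw [← Ideal.span_singleton_prime hn0, ← hn]
    infer_instance
  have hmemq : (q : 𝓞 L) ∈ P := by
    have : (q : ℤ) ∈ P.under ℤ := hqP ▸ Ideal.mem_span_singleton_self _
    simpa [Ideal.mem_comap] using this
  have hqS : q ∈ S := by
    by_contra hqS
    exact (not_dvd_differentIdeal_iff.mpr (hS q hq hqS P hmemq))
      ((dvd_pow_self P hj0.ne').trans hj)
  have hqN : Ideal.span {((q ^ d : ℕ) : 𝓞 L)} ∣ Ideal.span {(N : 𝓞 L)} := by
    rw [Ideal.dvd_iff_le, Ideal.span_singleton_le_span_singleton]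
    exact Nat.cast_dvd_cast
      (pow_dvd_pow_of_dvd (Finset.dvd_prod_of_mem _ (Finset.mem_filter.mpr ⟨hqS, hq⟩)) d)
  by_cases hPj : P ^ j ∣ Ideal.span {((q ^ d : ℕ) : 𝓞 L)}
  · exact hPj.trans hqN
  exfalso
  have hdvd : Ideal.span {((q ^ d : ℕ) : 𝓞 L)} ∣ differentIdeal ℤ (𝓞 L) := by
    refine dvd_of_forall_primePow (by simp [hq.ne_zero]) fun Q hQ i hi => ?_
    rcases Nat.eq_zero_or_pos i with rfl | hi0
    · simp
    have hQp : Q.IsPrime := Ideal.isPrime_of_prime hQ
    have : Q.IsMaximal := hQp.isMaximal hQ.ne_zero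
    have hmemQ : (q : 𝓞 L) ∈ Q := by
      have : ((q ^ d : ℕ) : 𝓞 L) ∈ Q :=
        Ideal.le_of_dvd ((dvd_pow_self Q hi0.ne').trans hi) (Ideal.mem_span_singleton_self _)
      rw [Nat.cast_pow] at this
      exact hQp.mem_of_pow_mem _ this
    have : Q.LiesOver (P.under ℤ) := ⟨by
      rw [hqP]
      refine (Ideal.IsMaximal.eq_of_le ?_ (Ideal.IsPrime.under ℤ Q).ne_top ?_)
      · rw [← hqP]; infer_instance
      · rw [Ideal.span_le, Set.singleton_subset_iff]
        simpa [Ideal.mem_comap] using hmemQ⟩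
    have : P.LiesOver (P.under ℤ) := ⟨rfl⟩
    obtain ⟨σ, hσ⟩ := Ideal.exists_smul_eq_of_isGaloisGroup (P.under ℤ) P Q (L ≃ₐ[ℚ] L)
    have hinv : σ • Ideal.span {((q ^ d : ℕ) : 𝓞 L)} = Ideal.span {((q ^ d : ℕ) : 𝓞 L)} := by
      rw [Ideal.pointwise_smul_def, Ideal.map_span, Set.image_singleton, map_natCast]
    have hmul : ∀ I J : Ideal (𝓞 L), I ∣ J → σ • I ∣ σ • J := fun I J hIJ =>
      Ideal.dvd_iff_le.mpr (Ideal.pointwise_smul_le_pointwise_smul_iff.mpr (Ideal.le_of_dvd hIJ))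
    have hmul' : ∀ I J : Ideal (𝓞 L), σ • I ∣ σ • J → I ∣ J := fun I J hIJ =>
      Ideal.dvd_iff_le.mpr (Ideal.pointwise_smul_le_pointwise_smul_iff.mp (Ideal.le_of_dvd hIJ))
    have hiP : P ^ i ∣ Ideal.span {((q ^ d : ℕ) : 𝓞 L)} :=
      hmul' _ _ (by rwa [smul_pow', hσ, hinv])
    have hij : i ≤ j := by
      by_contra hij
      exact hPj ((pow_dvd_pow P (Nat.le_of_not_le hij)).trans hiP)
    have := hmul _ _ ((pow_dvd_pow P hij).trans hj)
    rwa [smul_pow', hσ, smul_differentIdeal] at this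
  have hd : q ^ d ∣ d :=
    dvd_finrank_of_span_dvd_differentIdeal L (pow_ne_zero _ hq.ne_zero) hdvd
  exact absurd (Nat.le_of_dvd Module.finrank_pos hd) (Nat.not_le.mpr (Nat.lt_pow_self hq.one_lt))

/-- The discriminant of a Galois number field unramified outside `S` is bounded in terms of `S`
and the degree. -/
theorem natAbs_discr_dvd (S : Finset ℕ)
    (hS : ∀ q : ℕ, q.Prime → q ∉ S → ∀ (P : Ideal (𝓞 L)) [P.IsPrime], (q : 𝓞 L) ∈ P →
      Algebra.IsUnramifiedAt ℤ P) :
    (NumberField.discr L).natAbs ∣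
      ((∏ p ∈ S.filter Nat.Prime, p) ^ Module.finrank ℚ L) ^ Module.finrank ℚ L := by
  have := map_dvd (Ideal.absNorm (S := 𝓞 L)) (differentIdeal_dvd L S hS)
  rw [NumberField.absNorm_differentIdeal L, Ideal.absNorm_span_singleton,
    ← map_natCast (algebraMap ℤ (𝓞 L)), Algebra.norm_algebraMap,
    NumberField.RingOfIntegers.rank, Int.natAbs_pow, Int.natAbs_natCast] at this
  exact this

/-!
# A discriminant bound for Galois number fields

A discriminant bound for Galois number fields unramified outside a finite set of primes.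

If `p ^ k` divides the different, then `p ^ k` divides the trace of `1`, that is the degree.
Since the different of a Galois extension is stable under the Galois group, this bounds its
exponent at every prime above `p`.
-/

end Fermat.Agent.MWKummer
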