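import Fermat.Agent.GaloisBasics.Minkowski
import Fermat.Agent.MWKummer.Discriminant

set_option autoImplicit false

open scoped Pointwise NumberField

namespace Fermat.Agent.MWKummer

open GaloisBasics

/-- A subgroup containing every inertia group at every prime outside `S`. -/
def ContainsInertiaOutside (S : Finset ℕ) (H : Subgroup GalQ) : Prop :=
  ∀ q : ℕ, q.Prime → q ∉ S → ∀ A : ValuationSubring Qbar, A.LiesOverPrime q →
    A.inertiaSubgroupIn ℚ ≤ H

/-- The normal core inherits the inertia groups. -/
theorem ContainsInertiaOutside.normalCore {S : Finset ℕ} {H : Subgroup GalQ}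
    (h : ContainsInertiaOutside S H) : ContainsInertiaOutside S H.normalCore :=
  fun q hq hqS A hA σ hσ g =>
    h q hq hqS (g • A) (liesOverPrime_smul hA g) ((inertiaSubgroupIn_smul_iff σ g).mpr hσ)

/-- Hermite: there are finitely many Galois number fields in `Qbar` of bounded degree that are
unramified outside a given finite set. -/
theorem finite_galois_unramified (d : ℕ) (S : Finset ℕ) :
    {F : IntermediateField ℚ Qbar | FiniteDimensional ℚ F ∧ IsGalois ℚ F ∧
      Module.finrank ℚ F ≤ d ∧ ContainsInertiaOutside S F.fixingSubgroup}.Finite := by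
  have hfin := NumberField.finite_of_discr_bdd Qbar (((∏ p ∈ S.filter Nat.Prime, p) ^ d) ^ d)
  refine (hfin.image Subtype.val).subset ?_
  rintro F ⟨hF, hgal, hd, hI⟩
  refine ⟨⟨F, hF⟩, ?_, rfl⟩
  have hunr : ∀ q : ℕ, q.Prime → q ∉ S → ∀ (P : Ideal (𝓞 F)) [P.IsPrime], (q : 𝓞 F) ∈ P →
      Algebra.IsUnramifiedAt ℤ P := by
    intro q hq hqS P hP hqP
    obtain ⟨A, hA, rfl⟩ := exists_intIdeal_eq F hq P hqP
    exact (inertia_le_fixingSubgroup_iff F hA hq).mp (hI q hq hqS A hA)
  have h1 : 1 ≤ ∏ p ∈ S.filter Nat.Prime, p :=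
    Nat.succ_le_of_lt (Finset.prod_pos fun p (hp : p ∈ S.filter Nat.Prime) =>
      (Finset.mem_filter.mp hp).2.pos)
  have hle := (Nat.le_of_dvd (pow_pos (pow_pos h1 _) _) (natAbs_discr_dvd F S hunr)).trans
    ((Nat.pow_le_pow_left (Nat.pow_le_pow_right h1 hd) _).trans
      (Nat.pow_le_pow_right (Nat.one_le_pow _ _ h1) hd))
  change |NumberField.discr F| ≤ _
  rw [Int.abs_eq_natAbs]
  exact_mod_cast hle

/-- For all subgroups of bounded index that are open and contain inertia outside `S`, there is a
common finite level. -/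
theorem exists_finite_level (d : ℕ) (S : Finset ℕ) :
    ∃ L : IntermediateField ℚ Qbar, FiniteDimensional ℚ L ∧ ∀ (H : Subgroup GalQ)
      (L₀ : IntermediateField ℚ Qbar), FiniteDimensional ℚ L₀ → L₀.fixingSubgroup ≤ H →
      H.index ≤ d → ContainsInertiaOutside S H → L.fixingSubgroup ≤ H := by
  have hfin := finite_galois_unramified d.factorial S
  set T := {F : IntermediateField ℚ Qbar | FiniteDimensional ℚ F ∧ IsGalois ℚ F ∧
    Module.finrank ℚ F ≤ d.factorial ∧ ContainsInertiaOutside S F.fixingSubgroup} with hT
  have : Finite T := hfin.to_subtype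
  have : ∀ F : T, FiniteDimensional ℚ F.1 := fun F => F.2.1
  refine ⟨⨆ F : T, F.1, IntermediateField.finiteDimensional_iSup_of_finite,
    fun H L₀ hL₀fin hL₀ hd hI => ?_⟩
  let L' := IntermediateField.normalClosure ℚ L₀ Qbar
  have : FiniteDimensional ℚ L' := normalClosure.is_finiteDimensional ℚ L₀ Qbar
  have : IsGalois ℚ L' := IsGalois.normalClosure ℚ L₀ Qbar
  have := (InfiniteGalois.normal_iff_isGalois L').mpr inferInstance
  have hL' : L'.fixingSubgroup ≤ H.normalCore :=
    Subgroup.normal_le_normalCore.mpr
      ((IntermediateField.fixingSubgroup_antitone L₀.le_normalClosure).trans hL₀)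
  have hclosed : IsClosed (H.normalCore : Set GalQ) :=
    Subgroup.isClosed_of_isOpen _ (Subgroup.isOpen_mono hL' L'.fixingSubgroup_isOpen)
  let F := IntermediateField.fixedField H.normalCore
  have hF : F.fixingSubgroup = H.normalCore :=
    InfiniteGalois.fixingSubgroup_fixedField ⟨H.normalCore, hclosed⟩
  have hFL : F ≤ L' :=
    (IntermediateField.fixedField_antitone hL').trans
      (InfiniteGalois.fixedField_fixingSubgroup L').le
  have : FiniteDimensional ℚ F := FiniteDimensional.of_injective
    (IntermediateField.inclusion hFL).toLinearMap (IntermediateField.inclusion_injective hFL)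
  have : F.fixingSubgroup.Normal := hF ▸ inferInstance
  have : IsGalois ℚ F := (InfiniteGalois.normal_iff_isGalois F).mp inferInstance
  have : H.FiniteIndex := by
    have : L'.fixingSubgroup.FiniteIndex := by
      rw [← ker_restrictK]
      exact Subgroup.finiteIndex_ker _
    exact Subgroup.finiteIndex_of_le (hL'.trans H.normalCore_le)
  have hcard : Module.finrank ℚ F = H.normalCore.index := by
    rw [← hF, ← ker_restrictK, Subgroup.index_ker, ← IsGalois.card_aut_eq_finrank,
      MonoidHom.range_eq_top.mpr (restrictK_surjective F), Subgroup.card_top]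
  have hbound : H.normalCore.index ≤ d.factorial := by
    rw [Subgroup.normalCore_eq_ker, Subgroup.index_ker]
    refine (Subgroup.card_le_card_group _).trans ?_
    rw [Nat.card_perm]
    exact Nat.factorial_le (by rw [← Subgroup.index_eq_card]; exact hd)
  have hmem : F ∈ T := ⟨inferInstance, inferInstance, hcard ▸ hbound,
    hF ▸ hI.normalCore⟩
  exact (IntermediateField.fixingSubgroup_antitone
    (le_iSup (fun G : T => G.1) ⟨F, hmem⟩)).trans (hF.le.trans H.normalCore_le)

variable {M : Type*} [AddCommGroup M] [DistribMulAction GalQ M]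

/-- **Weak Mordell–Weil**, abstractly: if the `m`-torsion is finite, the group is `m`-divisible,
and the `m`-division points of rational points are unramified outside a finite set of primes,
then the rational points modulo `m` form a finite group. -/
theorem finite_fixedPoints_quotient (m : ℕ) (S : Finset ℕ)
    (htors : {t : M | m • t = 0}.Finite) (hdiv : ∀ x : M, ∃ y : M, m • y = x)
    (hlevel : ∀ y : M, ∃ L : IntermediateField ℚ Qbar, FiniteDimensional ℚ L ∧
      L.fixingSubgroup ≤ MulAction.stabilizer GalQ y)
    (hunr : ∀ x ∈ FixedPoints.addSubgroup GalQ M, ∀ y : M, m • y = x → ∀ q : ℕ, q.Prime →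
      q ∉ S → ∀ A : ValuationSubring Qbar, A.LiesOverPrime q →
        ∀ σ ∈ A.inertiaSubgroupIn ℚ, σ • y = y) :
    Finite (↥(FixedPoints.addSubgroup GalQ M) ⧸
      (nsmulAddMonoidHom (α := ↥(FixedPoints.addSubgroup GalQ M)) m).range) := by
  classical
  have : Finite {t : M | m • t = 0} := htors.to_subtype
  obtain ⟨L, hLfin, hL⟩ := exists_finite_level (Nat.card {t : M | m • t = 0}) S
  let L' := IntermediateField.normalClosure ℚ L Qbar
  have : FiniteDimensional ℚ L' := normalClosure.is_finiteDimensional ℚ L Qbar
  have : IsGalois ℚ L' := IsGalois.normalClosure ℚ L Qbar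
  have : L'.fixingSubgroup.FiniteIndex := by
    rw [← ker_restrictK]
    exact Subgroup.finiteIndex_ker _
  set G := FixedPoints.addSubgroup GalQ M with hG
  choose half hhalf using fun x : G => hdiv (x : M)
  have hdiff : ∀ (x : G) (σ : GalQ), m • (σ • half x - half x) = 0 := fun x σ => by
    rw [nsmul_sub, smul_comm m σ, hhalf, x.2 σ, sub_self]
  have hfix : ∀ x : G, L'.fixingSubgroup ≤ MulAction.stabilizer GalQ (half x) := by
    intro x
    refine (IntermediateField.fixingSubgroup_antitone L.le_normalClosure).trans ?_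
    obtain ⟨L₀, hL₀fin, hL₀⟩ := hlevel (half x)
    refine hL _ L₀ hL₀fin hL₀ ?_ (fun q hq hqS A hA σ hσ =>
      MulAction.mem_stabilizer_iff.mpr (hunr x x.2 (half x) (hhalf x) q hq hqS A hA σ hσ))
    rw [MulAction.index_stabilizer, ← Nat.card_coe_set_eq]
    let e : MulAction.orbit GalQ (half x) → {t : M | m • t = 0} := fun z =>
      ⟨z.1 - half x, by
        obtain ⟨σ, hσ⟩ := z.2
        show m • (z.1 - half x) = 0
        rw [← hσ]
        exact hdiff x σ⟩
    exact Nat.card_le_card_of_injective e fun a b hab =>
      Subtype.ext (sub_left_injective (congrArg Subtype.val hab))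
  let g : (G ⧸ (nsmulAddMonoidHom (α := G) m).range) →
      (GalQ ⧸ L'.fixingSubgroup → {t : M | m • t = 0}) := fun x c =>
    ⟨c.out • half x.out - half x.out, hdiff x.out c.out⟩
  refine Finite.of_injective g fun a b hab => ?_
  rw [← Quotient.out_eq a, ← Quotient.out_eq b]
  refine QuotientAddGroup.eq.mpr ?_
  have hz : half b.out - half a.out ∈ G := by
    intro σ
    have hc := congrArg Subtype.val (congrFun hab (σ : GalQ ⧸ L'.fixingSubgroup))
    obtain ⟨h, hh⟩ := QuotientGroup.mk_out_eq_mul L'.fixingSubgroup σ
    simp only [g] at hc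
    rw [hh, mul_smul, mul_smul, MulAction.mem_stabilizer_iff.mp (hfix _ h.2),
      MulAction.mem_stabilizer_iff.mp (hfix _ h.2), sub_eq_sub_iff_sub_eq_sub,
      ← smul_sub] at hc
    rw [← neg_sub (half a.out), smul_neg, hc]
  exact ⟨⟨_, hz⟩, Subtype.ext (by
    simp [hhalf, sub_eq_neg_add])⟩

/-!
# Finiteness of unramified extensions and weak Mordell–Weil

Finiteness of extensions of bounded degree unramified outside a finite set, and the weak
Mordell–Weil theorem for an abstract Galois module.
-/

end Fermat.Agent.MWKummer
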